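import Mathlib
import Fermat.Prelude.Def_EllipticCurve_FrobeniusTrace

set_option autoImplicit false
open scoped Pointwise
open Polynomial

namespace Fermat.Agent.FrobExists



theorem exists_liesOverPrime (ℓ : ℕ) (hℓ : ℓ.Prime) :
    ∃ A : ValuationSubring (AlgebraicClosure ℚ), A.LiesOverPrime ℓ := by
  let R : Subring (AlgebraicClosure ℚ) := (Int.castRingHom (AlgebraicClosure ℚ)).range
  let l : R := ⟨(ℓ : AlgebraicClosure ℚ), ⟨(ℓ : ℤ), by simp⟩⟩
  have hI : Ideal.span {l} ≠ ⊤ := by
    intro h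
    rw [Ideal.span_singleton_eq_top] at h
    obtain ⟨⟨m, ⟨n, hn⟩⟩, hm⟩ := isUnit_iff_exists_inv.mp h
    have h1 : (ℓ : AlgebraicClosure ℚ) * m = 1 := congrArg Subtype.val hm
    rw [← hn] at h1
    have h2 : ((ℓ : ℤ) * n : ℤ) = 1 := by
      have : (((ℓ : ℤ) * n : ℤ) : AlgebraicClosure ℚ) = ((1 : ℤ) : AlgebraicClosure ℚ) := by
        push_cast
        simpa using h1
      exact Int.cast_injective this
    have h3 : (ℓ : ℤ) ∣ 1 := ⟨n, h2.symm⟩
    have := Int.le_of_dvd one_pos h3
    have := hℓ.two_le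
    omega
  obtain ⟨B, -, hB⟩ := Ideal.image_subset_nonunits_valuationSubring _ hI
  exact ⟨B, hB ⟨l, Ideal.subset_span rfl, rfl⟩⟩



variable {L : Type*} [Field L]

lemma mem_of_isIntegral_int (A : ValuationSubring L) {x : L} (hx : IsIntegral ℤ x) : x ∈ A := by
  have h : IsIntegral A x := hx.tower_top
  obtain ⟨y, hy⟩ := IsIntegrallyClosed.isIntegral_iff.mp h
  rw [← hy]; exact y.2

lemma exists_mul_isIntegral_aux (A : ValuationSubring L) (x : L) (hxA : x ∈ A) (n : ℕ) :
    ∀ (g : (integralClosure ℤ L)[X]), g.natDegree = n → aeval x g = 0 →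
      (∃ i, ((g.coeff i : integralClosure ℤ L) : L) ∉ A.nonunits) →
    ∃ b : L, IsIntegral ℤ b ∧ b ∉ A.nonunits ∧ IsIntegral ℤ (b * x) := by
  induction n using Nat.strong_induction_on with
  | _ n ih =>
    intro g hn hg hcoef
    have hcx : IsIntegral ℤ ((g.leadingCoeff : L) * x) := by
      have h1 : IsIntegral (integralClosure ℤ L) (g.leadingCoeff • x) :=
        isIntegral_leadingCoeff_smul g x hg
      exact isIntegral_trans _ h1
    by_cases hc : ((g.leadingCoeff : integralClosure ℤ L) : L) ∈ A.nonunits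
    · obtain ⟨i, hi⟩ := hcoef
      have hin : i ≠ n := by
        rintro rfl
        apply hi
        rw [← hn]
        exact hc
      have hn1 : 1 ≤ n := by
        by_contra h0
        have h0' : n = 0 := by omega
        rw [h0'] at hn
        have hi0 : i ≠ 0 := h0' ▸ hin
        apply hi
        rw [Polynomial.coeff_eq_zero_of_natDegree_lt (by omega)]
        simp
      have hvcx : ((g.leadingCoeff : L) * x) ∈ A.nonunits := by
        rw [ValuationSubring.mem_nonunits_iff] at hc ⊢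
        rw [map_mul]
        have hx1 : A.valuation x ≤ 1 := (A.valuation_le_one_iff x).mpr hxA
        calc A.valuation (g.leadingCoeff : L) * A.valuation x ≤ A.valuation (g.leadingCoeff : L) * 1 := by gcongr
          _ < 1 := by simpa using hc
      set g' : (integralClosure ℤ L)[X] := g.eraseLead + C ⟨_, hcx⟩ * X ^ (n - 1) with hg'
      have hdeg : g'.natDegree < n := by
        have h1 : g.eraseLead.natDegree ≤ n - 1 := hn ▸ g.eraseLead_natDegree_le
        have h2 : (C (⟨_, hcx⟩ : integralClosure ℤ L) * X ^ (n - 1)).natDegree ≤ n - 1 :=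
          natDegree_C_mul_X_pow_le _ _
        have h3 : g'.natDegree ≤ n - 1 := natDegree_add_le_of_degree_le h1 h2
        omega
      have heval : aeval x g' = 0 := by
        have h1 : aeval x g = aeval x g.eraseLead + (g.leadingCoeff : L) * x ^ n := by
          conv_lhs => rw [← g.eraseLead_add_C_mul_X_pow]
          rw [map_add, map_mul, aeval_C, map_pow, aeval_X, hn]
          rfl
        have h2 : aeval x g' = aeval x g.eraseLead + ((g.leadingCoeff : L) * x) * x ^ (n - 1) := by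
          rw [hg', map_add, map_mul, aeval_C, map_pow, aeval_X]
          rfl
        rw [h2, ← hg, h1]
        obtain ⟨m, rfl⟩ : ∃ m, n = m + 1 := ⟨n - 1, by omega⟩
        simp only [Nat.add_sub_cancel]
        ring
      refine ih _ hdeg g' rfl heval ⟨i, ?_⟩
      intro hmem
      apply hi
      have hcoeff : ((g'.coeff i : integralClosure ℤ L) : L) =
          (g.coeff i : L) + (if i = n - 1 then (g.leadingCoeff : L) * x else 0) := by
        rw [hg', coeff_add, coeff_C_mul_X_pow, eraseLead_coeff_of_ne _ (hn ▸ hin)]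
        split_ifs <;> simp
      have hsub : (g.coeff i : L) = (g'.coeff i : L) - (if i = n - 1 then (g.leadingCoeff : L) * x else 0) := by
        rw [hcoeff]; ring
      rw [hsub, ValuationSubring.mem_nonunits_iff]
      refine lt_of_le_of_lt (Valuation.map_sub _ _ _) (max_lt ?_ ?_)
      · exact (ValuationSubring.mem_nonunits_iff A).mp hmem
      · split_ifs
        · exact (ValuationSubring.mem_nonunits_iff A).mp hvcx
        · simp
    · exact ⟨g.leadingCoeff, g.leadingCoeff.2, hc, hcx⟩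


lemma intCast_not_mem_nonunits (A : ValuationSubring L) {ℓ : ℕ} (hℓ : ℓ.Prime)
    (hA : A.LiesOverPrime ℓ) {m : ℤ} (hm : ¬ (ℓ : ℤ) ∣ m) : (m : L) ∉ A.nonunits := by
  intro hmem
  have hcop : IsCoprime (ℓ : ℤ) m :=
    (Nat.prime_iff_prime_int.mp hℓ).coprime_iff_not_dvd.mpr hm
  obtain ⟨a, b, hab⟩ := hcop
  have h1 : (a : L) * (ℓ : L) + (b : L) * (m : L) = 1 := by exact_mod_cast congrArg (Int.cast : ℤ → L) hab
  have hv : ∀ k : ℤ, A.valuation (k : L) ≤ 1 := fun k =>
    (A.valuation_le_one_iff _).mpr (mem_of_isIntegral_int A (isIntegral_algebraMap (R := ℤ) (x := k)))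
  have hl : A.valuation (ℓ : L) < 1 := (A.mem_nonunits_iff).mp hA
  have hm' : A.valuation (m : L) < 1 := (A.mem_nonunits_iff).mp hmem
  have h2 : A.valuation ((a : L) * (ℓ : L) + (b : L) * (m : L)) < 1 := by
    refine lt_of_le_of_lt (Valuation.map_add _ _ _) (max_lt ?_ ?_)
    · rw [map_mul]
      calc A.valuation (a : L) * A.valuation (ℓ : L) ≤ 1 * A.valuation (ℓ : L) := by gcongr; exact hv a
        _ < 1 := by simpa using hl
    · rw [map_mul]
      calc A.valuation (b : L) * A.valuation (m : L) ≤ 1 * A.valuation (m : L) := by gcongr; exact hv b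
        _ < 1 := by simpa using hm'
  rw [h1, map_one] at h2
  exact lt_irrefl _ h2

lemma exists_mul_isIntegral [CharZero L] (A : ValuationSubring L) {ℓ : ℕ} (hℓ : ℓ.Prime)
    (hA : A.LiesOverPrime ℓ) (x : L) (hxA : x ∈ A) (hx : IsAlgebraic ℤ x) :
    ∃ b : L, IsIntegral ℤ b ∧ b ∉ A.nonunits ∧ IsIntegral ℤ (b * x) := by
  obtain ⟨p, hp0, hp⟩ := hx
  have hprim : p.primPart.IsPrimitive := p.isPrimitive_primPart
  have hev : aeval x p.primPart = 0 := aeval_primPart_eq_zero hp0 hp
  have hex : ∃ i, ¬ (ℓ : ℤ) ∣ p.primPart.coeff i := by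
    by_contra hall
    push Not at hall
    have hdvd : C (ℓ : ℤ) ∣ p.primPart := (C_dvd_iff_dvd_coeff _ _).mpr hall
    have hu := hprim _ hdvd
    have := Int.isUnit_iff.mp hu
    have := hℓ.two_le
    omega
  obtain ⟨i, hi⟩ := hex
  refine exists_mul_isIntegral_aux A x hxA _ (p.primPart.map (algebraMap ℤ (integralClosure ℤ L))) rfl ?_ ⟨i, ?_⟩
  · rw [aeval_map_algebraMap]; exact hev
  · rw [coeff_map]
    have : ((algebraMap ℤ (integralClosure ℤ L) (p.primPart.coeff i) : integralClosure ℤ L) : L) = ((p.primPart.coeff i : ℤ) : L) := by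
      simp
    rw [this]
    exact intCast_not_mem_nonunits A hℓ hA hi



noncomputable section

abbrev Qb := AlgebraicClosure ℚ
abbrev GQ := Qb ≃ₐ[ℚ] Qb
abbrev Zb := integralClosure ℤ Qb

theorem isAlgebraicQb : Algebra.IsAlgebraic ℚ Qb := AlgebraicClosure.isAlgebraic ℚ
attribute [local instance] isAlgebraicQb
theorem isAlgClosureQb : IsAlgClosure ℚ Qb := ⟨inferInstance, inferInstance⟩
attribute [local instance] isAlgClosureQb
theorem normalQb : Normal ℚ Qb := IsAlgClosure.normal ℚ Qb
attribute [local instance] normalQb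
theorem isGaloisQb : IsGalois ℚ Qb := ⟨⟩
attribute [local instance] isGaloisQb


theorem isInvariantZb : Algebra.IsInvariant ℤ Zb GQ := by
  refine ⟨fun b hb => ?_⟩
  have h1 : (b : Qb) ∈ (⊥ : IntermediateField ℚ Qb) := by
    rw [InfiniteGalois.mem_bot_iff_fixed]
    intro f
    exact congrArg Subtype.val (hb f)
  obtain ⟨q, hq⟩ := IntermediateField.mem_bot.mp h1
  have h2 : IsIntegral ℤ q := by
    have : IsIntegral ℤ (algebraMap ℚ Qb q) := hq ▸ b.2
    exact (isIntegral_algebraMap_iff (algebraMap ℚ Qb).injective).mp this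
  obtain ⟨m, hm⟩ := IsIntegrallyClosed.isIntegral_iff.mp h2
  refine ⟨m, Subtype.ext ?_⟩
  rw [← hq, ← hm]
  simp

attribute [local instance] isInvariantZb

/-- The discrete topology on the ring of algebraic integers (local instance only). -/
@[instance_reducible] def topZb : TopologicalSpace Zb := ⊥
attribute [local instance] topZb
theorem discZb : DiscreteTopology Zb := ⟨rfl⟩
attribute [local instance] discZb
theorem contZb : ContinuousSMul GQ Zb := by
  rw [continuousSMul_iff_stabilizer_isOpen]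
  intro b
  have : (MulAction.stabilizer GQ b : Set GQ) = (MulAction.stabilizer GQ (b : Qb) : Set GQ) := by
    ext σ
    simp only [SetLike.mem_coe, MulAction.mem_stabilizer_iff]
    constructor
    · intro h; exact congrArg Subtype.val h
    · intro h; exact Subtype.ext h
  rw [this]
  exact stabilizer_isOpen_of_isIntegral (b : Qb)
attribute [local instance] contZb


/-- The inclusion of the ring of all algebraic integers into a valuation subring. -/
def incl (A : ValuationSubring Qb) : Zb →+* A where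
  toFun b := ⟨(b : Qb), mem_of_isIntegral_int A b.2⟩
  map_one' := rfl
  map_mul' _ _ := rfl
  map_zero' := rfl
  map_add' _ _ := rfl

/-- The prime of `Zb` cut out by a valuation subring. -/
def primeOf (A : ValuationSubring Qb) : Ideal Zb := (IsLocalRing.maximalIdeal A).comap (incl A)

instance primeOf_isPrime (A : ValuationSubring Qb) : (primeOf A).IsPrime :=
  Ideal.comap_isPrime _ _

lemma mem_primeOf (A : ValuationSubring Qb) (b : Zb) : b ∈ primeOf A ↔ (b : Qb) ∈ A.nonunits := by
  rw [ValuationSubring.mem_nonunits_iff_exists_mem_maximalIdeal]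
  constructor
  · intro h; exact ⟨_, h⟩
  · rintro ⟨_, h⟩; exact h

theorem exists_stabilizer_frob (A : ValuationSubring Qb) {ℓ : ℕ} (hℓ : ℓ.Prime)
    (hA : A.LiesOverPrime ℓ) :
    ∃ σ : GQ, σ • primeOf A = primeOf A ∧ ∀ b : Zb, σ • b - b ^ ℓ ∈ primeOf A := by
  have : Fact ℓ.Prime := ⟨hℓ⟩
  have hmem : ((ℓ : ℕ) : Zb) ∈ primeOf A := by
    rw [mem_primeOf]
    have h0 : (((ℓ : ℕ) : Zb) : Qb) = (ℓ : Qb) := by simp
    rw [h0]
    exact hA
  have : CharP (Zb ⧸ primeOf A) ℓ := by
    rw [CharP.charP_iff_prime_eq_zero hℓ]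
    have : ((ℓ : ℕ) : Zb ⧸ primeOf A) = Ideal.Quotient.mk (primeOf A) ((ℓ : ℕ) : Zb) := by simp
    rw [this, Ideal.Quotient.eq_zero_iff_mem]
    exact hmem
  let P : Ideal ℤ := (primeOf A).under ℤ
  let F : (Zb ⧸ primeOf A) →ₐ[ℤ ⧸ P] (Zb ⧸ primeOf A) :=
    { frobenius (Zb ⧸ primeOf A) ℓ with
      commutes' := by
        intro r
        obtain ⟨n, rfl⟩ := Ideal.Quotient.mk_surjective r
        have : algebraMap (ℤ ⧸ P) (Zb ⧸ primeOf A) (Ideal.Quotient.mk P n) = ((n : ℤ) : Zb ⧸ primeOf A) := by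
          have h1 : Ideal.Quotient.mk P n = ((n : ℤ) : ℤ ⧸ P) := by simp
          rw [h1, map_intCast]
        simp only [RingHom.toMonoidHom_eq_coe, OneHom.toFun_eq_coe, MonoidHom.toOneHom_coe,
          MonoidHom.coe_coe]
        rw [this, map_intCast] }
  have hbij : Function.Bijective F := by
    constructor
    · exact frobenius_inj (Zb ⧸ primeOf A) ℓ
    · intro y
      obtain ⟨b, rfl⟩ := Ideal.Quotient.mk_surjective y
      obtain ⟨c, hc⟩ := IsAlgClosed.exists_pow_nat_eq (b : Qb) hℓ.pos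
      have hcint : IsIntegral ℤ c := IsIntegral.of_pow hℓ.pos (hc ▸ b.2)
      refine ⟨Ideal.Quotient.mk _ ⟨c, hcint⟩, ?_⟩
      show (Ideal.Quotient.mk (primeOf A) ⟨c, hcint⟩) ^ ℓ = _
      rw [← map_pow]
      congr 1
      exact Subtype.ext hc
  obtain ⟨σ, hσ⟩ := Ideal.Quotient.stabilizerHom_surjective_of_profinite (G := GQ) P (primeOf A)
    (AlgEquiv.ofBijective F hbij)
  refine ⟨σ.1, σ.2, fun b => ?_⟩
  have h1 := congrArg (fun f => f (Ideal.Quotient.mk (primeOf A) b)) hσ
  simp only [Ideal.Quotient.stabilizerHom_apply] at h1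
  rw [← Ideal.Quotient.eq, map_pow]
  exact h1

lemma apply_mem_of_smul_primeOf_eq (A : ValuationSubring Qb) {ℓ : ℕ} (hℓ : ℓ.Prime)
    (hA : A.LiesOverPrime ℓ) (τ : GQ) (hτ : τ • primeOf A = primeOf A) (x : Qb) (hx : x ∈ A) :
    τ x ∈ A := by
  have halg : IsAlgebraic ℤ x :=
    (IsFractionRing.isAlgebraic_iff ℤ ℚ Qb).mpr (Algebra.IsAlgebraic.isAlgebraic x)
  obtain ⟨b, hb, hbn, hbx⟩ := exists_mul_isIntegral A hℓ hA x hx halg
  have hτb : IsIntegral ℤ (τ b) := hb.map τ
  have hτbn : τ b ∉ A.nonunits := by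
    intro h
    apply hbn
    have h1 : (τ • (⟨b, hb⟩ : Zb)) ∈ τ • primeOf A := by
      rw [hτ, mem_primeOf]
      exact h
    rw [Ideal.smul_mem_pointwise_smul_iff, mem_primeOf] at h1
    exact h1
  have hτbx : τ b * τ x ∈ A := by
    rw [← map_mul]
    exact mem_of_isIntegral_int A (hbx.map τ)
  have hv1 : A.valuation (τ b) = 1 := by
    refine le_antisymm ((A.valuation_le_one_iff _).mpr (mem_of_isIntegral_int A hτb)) ?_
    rw [A.mem_nonunits_iff] at hτbn
    exact not_lt.mp hτbn
  rw [← A.valuation_le_one_iff] at hτbx ⊢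
  rwa [map_mul, hv1, one_mul] at hτbx

theorem exists_isFrobeniusAt (A : ValuationSubring Qb) {ℓ : ℕ} (hℓ : ℓ.Prime)
    (hA : A.LiesOverPrime ℓ) : ∃ σ : GQ, A.IsFrobeniusAt σ ℓ := by
  obtain ⟨σ, hσ, hfrob⟩ := exists_stabilizer_frob A hℓ hA
  have hσinv : σ⁻¹ • primeOf A = primeOf A := by
    conv_lhs => rw [← hσ]
    rw [inv_smul_smul]
  have hdec : σ ∈ A.decompositionSubgroup ℚ := by
    rw [MulAction.mem_stabilizer_iff]
    apply SetLike.ext
    intro x
    rw [ValuationSubring.mem_pointwise_smul_iff_inv_smul_mem]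
    constructor
    · intro h
      have := apply_mem_of_smul_primeOf_eq A hℓ hA σ hσ _ h
      rwa [AlgEquiv.smul_def, ← AlgEquiv.mul_apply, mul_inv_cancel] at this
    · intro h
      exact apply_mem_of_smul_primeOf_eq A hℓ hA σ⁻¹ hσinv _ h
  refine ⟨σ, hdec, fun xbar => ?_⟩
  obtain ⟨x, rfl⟩ := IsLocalRing.residue_surjective xbar
  set g : A.decompositionSubgroup ℚ := ⟨σ, hdec⟩ with hg
  have key : ∀ c : Zb, IsLocalRing.residue A (g • incl A c) = (IsLocalRing.residue A (incl A c)) ^ ℓ := by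
    intro c
    have h1 : incl A (σ • c - c ^ ℓ) ∈ IsLocalRing.maximalIdeal A := hfrob c
    rw [map_sub, map_pow, ← IsLocalRing.residue_eq_zero_iff, map_sub, sub_eq_zero, map_pow] at h1
    rw [← h1]
    rfl
  have halg : IsAlgebraic ℤ (x : Qb) :=
    (IsFractionRing.isAlgebraic_iff ℤ ℚ Qb).mpr (Algebra.IsAlgebraic.isAlgebraic (x : Qb))
  obtain ⟨b, hb, hbn, hbx⟩ := exists_mul_isIntegral A hℓ hA x x.2 halg
  have hmul : incl A ⟨b, hb⟩ * x = incl A ⟨_, hbx⟩ := Subtype.ext rfl
  have hbne : IsLocalRing.residue A (incl A ⟨b, hb⟩) ≠ 0 := by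
    rw [Ne, IsLocalRing.residue_eq_zero_iff]
    intro h
    exact hbn ((mem_primeOf A ⟨b, hb⟩).mp h)
  have h2 : IsLocalRing.residue A (g • (incl A ⟨b, hb⟩ * x)) = (IsLocalRing.residue A (incl A ⟨b, hb⟩ * x)) ^ ℓ := by
    rw [hmul]; exact key _
  rw [smul_mul', map_mul, map_mul, key, mul_pow] at h2
  rw [← IsLocalRing.ResidueField.residue_smul]
  exact mul_left_cancel₀ (pow_ne_zero _ hbne) h2

end

end Fermat.Agent.FrobExists
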